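import Fermat.Agent.LT.T7.H893.SupplySphSpec
import Fermat.Agent.LT.T6.H392.SphFinSupp
import Fermat.Agent.LT.H129.CartanInv
import Fermat.Agent.LT.T6.H176.InstLocal

/-!
# Row LT, tower T7, leaf T7.L2.1.H2b.3a `SphInvC893` (spare of helper333)

OFF-MAIN.  `sphInvC333 (F) : H893.SphInvC893 F`, VERBATIM vs `T7/H893/SupplySphSpec.lean`
(helper893), UNCONDITIONAL: a spherical function on `GL₂(F_v)` is bi-`GL₂(𝒪_v)`-invariant and
supported on finitely many cosets.

Proof = plug of three closed assets of the master tree (byte-identical copies):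
`H129.cartan_mul129` (the Cartan invariant is bi-`U(0)`-invariant), `T6.H392.sphFinSuppC392`
(a function of the Cartan invariant with finite support is supported on finitely many cosets),
`T6.H176.instLocalC176` (the completions are local fields).
-/

set_option autoImplicit false

open IsDedekindDomain NumberField

noncomputable section

namespace Fermat.Agent.LT.T7.H333

open Fermat.Agent.LT Fermat.Agent.LT.T7

/-- **LEAF T7.L2.1.H2b.3a = SPH-INV**, proved. -/
theorem sphInvC333 (F : Type) [Field F] [NumberField F] : H893.SphInvC893 F := by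
  intro v φ A hA
  obtain ⟨-, hφ⟩ := hA
  have hφ' : φ = fun g => A (T6.cartan g) := funext hφ
  constructor
  · intro u u' g hu hu'
    rw [hφ (u * g * u'), hφ g, H129.cartan_mul129 hu hu']
  · rw [hφ']
    exact T6.H392.sphFinSuppC392 _ _ (T6.H176.instLocalC176 F v) A

end Fermat.Agent.LT.T7.H333

end
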